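/-
S29 / M4b / K4-HECKE (helper822): the Möbius maps of the Hecke representatives
`heckeRep ℓ i` (`DefsM`) on `ℍ`, and the action identity coming from a Hecke factorisation
`heckeRep ℓ i * γ = δ * heckeRep ℓ j`.
-/
import Fermat.Agent.S29.M4b.Defs
import Fermat.Agent.S24.Inf.HNF

set_option autoImplicit false

noncomputable section

open ModularCurve AlgebraicCurve CongruenceSubgroup UpperHalfPlane
open scoped MatrixGroups Manifold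

namespace Fermat.Agent.S29.M4b.H822

open Fermat.Agent.S24 Fermat.Agent.S29 Fermat.Agent.S29.M4b

/-- The matrix identity `[[a,b],[0,d]]·γ = γ'·[[a',b'],[0,d']]` on the level of `ℍ`. -/
theorem infAff_smul_eq_gen {a d a' d' : ℕ} {b b' : ℤ} (ha : 0 < a) (hd : 0 < d) (ha' : 0 < a')
    (hd' : 0 < d') (γ γ' : SL(2, ℤ))
    (h00 : (a : ℤ) * γ 0 0 + b * γ 1 0 = γ' 0 0 * a')
    (h01 : (a : ℤ) * γ 0 1 + b * γ 1 1 = γ' 0 0 * b' + γ' 0 1 * d')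
    (h10 : (d : ℤ) * γ 1 0 = γ' 1 0 * a')
    (h11 : (d : ℤ) * γ 1 1 = γ' 1 0 * b' + γ' 1 1 * d') (τ : ℍ) :
    infAff a b d (γ • τ) = γ' • infAff a' b' d' τ := by
  apply UpperHalfPlane.ext
  rw [infAff_coe ha hd, inf_sl_smul_coe γ' (infAff a' b' d' τ), infAff_coe ha' hd',
    inf_sl_smul_coe γ τ]
  have hden := inf_sl_denom_ne_zero γ τ
  have hden' := inf_sl_denom_ne_zero γ' (infAff a' b' d' τ)
  rw [infAff_coe ha' hd'] at hden'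
  have hd0 : (d : ℂ) ≠ 0 := by exact_mod_cast hd.ne'
  have hd'0 : (d' : ℂ) ≠ 0 := by exact_mod_cast hd'.ne'
  have e00 : (a : ℂ) * ((γ 0 0 : ℤ) : ℂ) + (b : ℂ) * ((γ 1 0 : ℤ) : ℂ)
      = ((γ' 0 0 : ℤ) : ℂ) * a' := by exact_mod_cast h00
  have e01 : (a : ℂ) * ((γ 0 1 : ℤ) : ℂ) + (b : ℂ) * ((γ 1 1 : ℤ) : ℂ)
      = ((γ' 0 0 : ℤ) : ℂ) * b' + ((γ' 0 1 : ℤ) : ℂ) * d' := by exact_mod_cast h01
  have e10 : (d : ℂ) * ((γ 1 0 : ℤ) : ℂ) = ((γ' 1 0 : ℤ) : ℂ) * a' := by exact_mod_cast h10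
  have e11 : (d : ℂ) * ((γ 1 1 : ℤ) : ℂ) = ((γ' 1 0 : ℤ) : ℂ) * b' + ((γ' 1 1 : ℤ) : ℂ) * d' := by
    exact_mod_cast h11
  have hden'' : ((γ' 1 0 : ℤ) : ℂ) * (((a' : ℂ) * τ + b') / d') + ((γ' 1 1 : ℤ) : ℂ) =
      ((d : ℂ) * (((γ 1 0 : ℤ) : ℂ) * τ + ((γ 1 1 : ℤ) : ℂ))) / d' := by
    rw [mul_add, ← mul_assoc, e10, e11]
    field_simp
    ring
  have hnum : ((γ' 0 0 : ℤ) : ℂ) * (((a' : ℂ) * τ + b') / d') + ((γ' 0 1 : ℤ) : ℂ) =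
      ((a : ℂ) * (((γ 0 0 : ℤ) : ℂ) * τ + ((γ 0 1 : ℤ) : ℂ))
        + (b : ℂ) * (((γ 1 0 : ℤ) : ℂ) * τ + ((γ 1 1 : ℤ) : ℂ))) / d' := by
    have : (a : ℂ) * (((γ 0 0 : ℤ) : ℂ) * τ + ((γ 0 1 : ℤ) : ℂ))
        + (b : ℂ) * (((γ 1 0 : ℤ) : ℂ) * τ + ((γ 1 1 : ℤ) : ℂ))
        = ((a : ℂ) * ((γ 0 0 : ℤ) : ℂ) + (b : ℂ) * ((γ 1 0 : ℤ) : ℂ)) * τ
          + ((a : ℂ) * ((γ 0 1 : ℤ) : ℂ) + (b : ℂ) * ((γ 1 1 : ℤ) : ℂ)) := by ring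
    rw [this, e00, e01]
    field_simp
    ring
  rw [hnum, hden'']
  generalize ((γ 0 0 : ℤ) : ℂ) * τ + ((γ 0 1 : ℤ) : ℂ) = X
  generalize ((γ 1 0 : ℤ) : ℂ) * τ + ((γ 1 1 : ℤ) : ℂ) = Y at hden
  field_simp

/-- The Möbius map of the Hecke representative `heckeRep ℓ i`:
`none ↦ (τ ↦ ℓ τ)`, `some b ↦ (τ ↦ (τ + b) / ℓ)`. -/
def hAct (ℓ : ℕ) : Option (Fin ℓ) → ℍ → ℍ
  | none => infAff ℓ 0 1
  | some b => infAff 1 ((b : ℕ) : ℤ) ℓ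

/-- The entries of `heckeRep ℓ i` as an upper triangular matrix `[[a, b], [0, d]]`. -/
def hA (ℓ : ℕ) : Option (Fin ℓ) → ℕ
  | none => ℓ
  | some _ => 1

def hB (ℓ : ℕ) : Option (Fin ℓ) → ℤ
  | none => 0
  | some b => ((b : ℕ) : ℤ)

def hD (ℓ : ℕ) : Option (Fin ℓ) → ℕ
  | none => 1
  | some _ => ℓ

theorem hAct_eq (ℓ : ℕ) (i : Option (Fin ℓ)) : hAct ℓ i = infAff (hA ℓ i) (hB ℓ i) (hD ℓ i) := by
  cases i <;> rfl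

theorem heckeRep_eq (ℓ : ℕ) (i : Option (Fin ℓ)) :
    heckeRep ℓ i = !![(hA ℓ i : ℤ), hB ℓ i; 0, (hD ℓ i : ℤ)] := by
  cases i <;> simp [heckeRep, hA, hB, hD]

theorem hA_pos {ℓ : ℕ} (hℓ : 0 < ℓ) (i : Option (Fin ℓ)) : 0 < hA ℓ i := by
  cases i <;> simp [hA, hℓ]

theorem hD_pos {ℓ : ℕ} (hℓ : 0 < ℓ) (i : Option (Fin ℓ)) : 0 < hD ℓ i := by
  cases i <;> simp [hD, hℓ]

theorem hA_mul_hD (ℓ : ℕ) (i : Option (Fin ℓ)) : hA ℓ i * hD ℓ i = ℓ := by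
  cases i <;> simp [hA, hD]

/-- **Action identity**: a Hecke factorisation `heckeRep ℓ i * γ = δ * heckeRep ℓ j` gives
`α_i (γ τ) = δ (α_j τ)` on `ℍ`. -/
theorem hAct_smul_of_factor {N ℓ : ℕ} (hℓ : 0 < ℓ) {γ : G0 N} {i j : Option (Fin ℓ)} {δ : G0 N}
    (h : IsHeckeFactor ℓ γ i (j, δ)) (τ : ℍ) :
    hAct ℓ i ((γ : SL(2, ℤ)) • τ) = (δ : SL(2, ℤ)) • hAct ℓ j τ := by
  rw [hAct_eq, hAct_eq]
  unfold IsHeckeFactor at h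
  rw [heckeRep_eq, heckeRep_eq] at h
  simp only [G0.mat] at h
  have e00 := congrFun (congrFun h 0) 0
  have e01 := congrFun (congrFun h 0) 1
  have e10 := congrFun (congrFun h 1) 0
  have e11 := congrFun (congrFun h 1) 1
  simp only [Matrix.mul_apply, Fin.sum_univ_two, Matrix.of_apply, Matrix.cons_val_zero,
    Matrix.cons_val_one, Matrix.cons_val', Matrix.cons_val_fin_one, zero_mul, mul_zero,
    zero_add, add_zero] at e00 e01 e10 e11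
  exact infAff_smul_eq_gen (hA_pos hℓ i) (hD_pos hℓ i) (hA_pos hℓ j) (hD_pos hℓ j) _ _
    e00 e01 e10 e11 τ

end Fermat.Agent.S29.M4b.H822
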