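/-
S29 / M4b / K4-HECKE (helper822): the ALGEBRAIC half.
`T_ℓ` (Prelude `heckeOperatorBar`) sends the `n`-Kummer class of `f` to the `n`-Kummer class of
`Norm_α (β f)`.  From the landed `HI` (`heckeInputsAlong_bar`) and `H455.IsKummerClass.correspondence`.
-/
import Fermat.Agent.S29.M4b.Defs
import Fermat.Agent.S29.HI
import Fermat.Prelude.Def_ModularCurve_HeckeModule

set_option autoImplicit false

noncomputable section

open ModularCurve AlgebraicCurve

namespace Fermat.Agent.S29.M4b.H822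

open Fermat.Agent.S24 Fermat.Agent.S29 Fermat.Agent.S29.M4b

/-- The function `Norm_α (β f) ∈ FF N` attached to `f ∈ FF N` by the Hecke correspondence. -/
def heckeNorm (N : ℕ) [NeZero N] (ℓ : ℕ) [NeZero ℓ] (f : FF N) : FF N :=
  H455.normAlong (heckeAlphaBar Kbar N ℓ) (heckeBetaBar Kbar N ℓ f)

theorem heckeNorm_mul (N : ℕ) [NeZero N] (ℓ : ℕ) [NeZero ℓ] (f g : FF N) :
    heckeNorm N ℓ (f * g) = heckeNorm N ℓ f * heckeNorm N ℓ g := by
  unfold heckeNorm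
  rw [map_mul, H455.normAlong_mul]

theorem heckeNorm_pow (N : ℕ) [NeZero N] (ℓ : ℕ) [NeZero ℓ] (f : FF N) (n : ℕ) :
    heckeNorm N ℓ (f ^ n) = heckeNorm N ℓ f ^ n := by
  unfold heckeNorm
  rw [map_pow, H455.normAlong_pow]

theorem heckeNorm_ne_zero (N : ℕ) [NeZero N] (ℓ : ℕ) [NeZero ℓ] {f : FF N} (hf : f ≠ 0) :
    heckeNorm N ℓ f ≠ 0 := by
  obtain ⟨-, -, -, hfin, -, -⟩ := H812.heckeInputsAlong N ℓ
  exact H455.normAlong_ne_zero _ hfin ((map_ne_zero _).mpr hf)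

/-- **Algebraic half of K4-HECKE**: `T_ℓ` maps the Kummer class of `f` to that of
`Norm_α (β f)`. -/
theorem isKummerClass_heckeOperatorBar (N : ℕ) [NeZero N] (ℓ : Nat.Primes) {n : ℤ} {f : FF N}
    {x : JZero N} (hx : H455.IsKummerClass n f x) :
    haveI : NeZero (ℓ : ℕ) := ⟨ℓ.2.ne_zero⟩
    H455.IsKummerClass n (heckeNorm N ℓ f) (heckeOperatorBar N ℓ x) := by
  haveI : NeZero (ℓ : ℕ) := ⟨ℓ.2.ne_zero⟩
  obtain ⟨hα, hβ, hP, hfin, hFI, hN⟩ := H812.heckeInputsAlong N (ℓ : ℕ)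
  haveI := hP
  have h := H455.IsKummerClass.correspondence (heckeBetaBar Kbar N ℓ) (heckeAlphaBar Kbar N ℓ)
    hβ hα hFI hfin hN hx
  have e : heckeOperatorBar N ℓ x = Pic0.correspondence (heckeBetaBar Kbar N ℓ)
      (heckeAlphaBar Kbar N ℓ) hβ hα hFI hfin hN x := by
    rw [heckeOperatorBar_apply, heckeOperatorAlong_eq hα hβ hFI hfin hN]
    rfl
  rw [e]
  exact h

end Fermat.Agent.S29.M4b.H822
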