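/-
S29 / M4b / K4-HECKE (helper822): the Hecke product `∏ᵢ G ∘ αᵢ` of a function on `ℍ`
(`αᵢ` = the Möbius maps of the Hecke representatives): holomorphy, character, invariance,
growth at all cusps (S24 `Inf` toolkit: Hermite normal form + affine substitution).
-/
import Fermat.Agent.S29.M4b.H822.HeckeAct
import Fermat.Agent.S29.M4b.H822.Basic
import Fermat.Agent.S29.H642.K2
import Fermat.Agent.S24.Mod.H564HolBase

set_option autoImplicit false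
set_option linter.unusedSectionVars false

noncomputable section

open ModularCurve AlgebraicCurve CongruenceSubgroup UpperHalfPlane
open scoped MatrixGroups Manifold

namespace Fermat.Agent.S29.M4b.H822

open Fermat.Agent.S24 Fermat.Agent.S24.H997 Fermat.Agent.S24.H648 Fermat.Agent.S29
  Fermat.Agent.S29.M4b

/-- The Hecke product `τ ↦ ∏ᵢ G (αᵢ τ)`. -/
def heckeProd (ℓ : ℕ) (G : ℍ → ℂ) : ℍ → ℂ := fun τ => ∏ i : Option (Fin ℓ), G (hAct ℓ i τ)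

theorem heckeProd_apply (ℓ : ℕ) (G : ℍ → ℂ) (τ : ℍ) :
    heckeProd ℓ G τ = ∏ i : Option (Fin ℓ), G (hAct ℓ i τ) := rfl

theorem heckeProd_pow (ℓ : ℕ) (G : ℍ → ℂ) (n : ℕ) :
    heckeProd ℓ (fun τ => G τ ^ n) = fun τ => heckeProd ℓ G τ ^ n := by
  funext τ
  simp only [heckeProd_apply]
  rw [Finset.prod_pow]

theorem mdiff_comp_hAct {ℓ : ℕ} (hℓ : 0 < ℓ) {G : ℍ → ℂ} (hG : MDifferentiable 𝓘(ℂ) 𝓘(ℂ) G)
    (i : Option (Fin ℓ)) : MDifferentiable 𝓘(ℂ) 𝓘(ℂ) (fun τ => G (hAct ℓ i τ)) := by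
  rw [hAct_eq]
  exact H564.mdiff_comp_infAff hG (hA_pos hℓ i) (hD_pos hℓ i) _

theorem mdiff_heckeProd {ℓ : ℕ} (hℓ : 0 < ℓ) {G : ℍ → ℂ} (hG : MDifferentiable 𝓘(ℂ) 𝓘(ℂ) G) :
    MDifferentiable 𝓘(ℂ) 𝓘(ℂ) (heckeProd ℓ G) := by
  have h : heckeProd ℓ G = ∏ i : Option (Fin ℓ), (fun τ => G (hAct ℓ i τ)) := by
    funext τ
    rw [heckeProd_apply, Finset.prod_apply]
  rw [h]
  exact MDifferentiable.prod fun i _ => mdiff_comp_hAct hℓ hG i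

/-! ### Characters -/

theorem zetaP_pow_val_sum (p : ℕ) [NeZero p] {ι : Type*} (s : Finset ι) (a : ι → ZMod p) :
    zetaP p ^ (∑ i ∈ s, a i).val = ∏ i ∈ s, zetaP p ^ (a i).val := by
  classical
  induction s using Finset.induction_on with
  | empty => simp
  | insert x s hx ih => rw [Finset.sum_insert hx, Finset.prod_insert hx, zetaP_pow_val_add, ih]

/-- **Character of the Hecke product**: if `U` has character `c` and `αᵢ γ = δᵢ α_{π i}` with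
`π` a permutation, then `(∏ᵢ U ∘ αᵢ)(γ τ) = ζ ^ (∑ᵢ c δᵢ) · (∏ᵢ U ∘ αᵢ)(τ)`. -/
theorem heckeProd_smul {N p ℓ : ℕ} [NeZero p] (hℓ : 0 < ℓ) {c : G0 N → ZMod p} {U : ℍ → ℂ}
    (hU : HasChar N p c U) (γ : G0 N) (π : Equiv.Perm (Option (Fin ℓ)))
    (δ : Option (Fin ℓ) → G0 N) (hfac : ∀ i, IsHeckeFactor ℓ γ i (π i, δ i)) (τ : ℍ) :
    heckeProd ℓ U ((γ : SL(2, ℤ)) • τ) = zetaP p ^ (∑ i, c (δ i)).val * heckeProd ℓ U τ := by
  rw [heckeProd_apply, heckeProd_apply, zetaP_pow_val_sum]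
  have h1 : ∀ i : Option (Fin ℓ), U (hAct ℓ i ((γ : SL(2, ℤ)) • τ))
      = zetaP p ^ (c (δ i)).val * U (hAct ℓ (π i) τ) := by
    intro i
    rw [hAct_smul_of_factor hℓ (hfac i) τ]
    exact hU (δ i) _
  rw [Finset.prod_congr rfl fun i _ => h1 i, Finset.prod_mul_distrib]
  congr 1
  exact Equiv.prod_comp π fun j => U (hAct ℓ j τ)

theorem hasChar_heckeProd {N p ℓ : ℕ} [NeZero p] (hℓ : 0 < ℓ) {c c' : G0 N → ZMod p} {U : ℍ → ℂ}
    (hU : HasChar N p c U)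
    (hfac : ∀ γ : G0 N, ∃ (π : Equiv.Perm (Option (Fin ℓ))) (δ : Option (Fin ℓ) → G0 N),
      ∀ i, IsHeckeFactor ℓ γ i (π i, δ i))
    (hcc' : IsTransfer N ℓ c c') : HasChar N p c' (heckeProd ℓ U) := by
  intro γ τ
  obtain ⟨π, δ, h⟩ := hfac γ
  rw [heckeProd_smul hℓ hU γ π δ h τ, hcc' γ π δ h]

/-- Invariance of the Hecke product of a `Γ₀(N)`-invariant function. -/
theorem heckeProd_invariant {N ℓ : ℕ} (hℓ : 0 < ℓ) {G : ℍ → ℂ}
    (hG : ∀ γ ∈ Gamma0 N, ∀ τ : ℍ, G (γ • τ) = G τ)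
    (hfac : ∀ γ : G0 N, ∃ (π : Equiv.Perm (Option (Fin ℓ))) (δ : Option (Fin ℓ) → G0 N),
      ∀ i, IsHeckeFactor ℓ γ i (π i, δ i)) :
    ∀ γ ∈ Gamma0 N, ∀ τ : ℍ, heckeProd ℓ G (γ • τ) = heckeProd ℓ G τ := by
  intro γ hγ τ
  obtain ⟨π, δ, h⟩ := hfac ⟨γ, hγ⟩
  rw [heckeProd_apply, heckeProd_apply]
  have h1 : ∀ i : Option (Fin ℓ), G (hAct ℓ i (γ • τ)) = G (hAct ℓ (π i) τ) := by
    intro i
    have := hAct_smul_of_factor hℓ (h i) τ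
    rw [show (((⟨γ, hγ⟩ : G0 N) : SL(2, ℤ))) = γ from rfl] at this
    rw [this]
    exact hG _ (δ i).2 _
  rw [Finset.prod_congr rfl fun i _ => h1 i]
  exact Equiv.prod_comp π fun j => G (hAct ℓ j τ)

/-! ### Growth at all cusps -/

section Growth

variable {N : ℕ} [NeZero N]

/-- A good function lies in S24's ring `holN N`. -/
theorem mem_holN_of_mem_goodRing {G : ℍ → ℂ} (hG : G ∈ goodRing N) : G ∈ holN N := by
  by_cases h0 : ∃ τ : ℍ, G τ ≠ 0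
  · have hc : IsParHom (0 : G0 N → ZMod 1) :=
      ⟨fun _ _ => by simp, fun _ _ => rfl, fun _ _ _ _ => rfl⟩
    have hU : IsTwisted N 1 (0 : G0 N → ZMod 1) G := by
      refine ⟨hG.1, h0, fun γ τ => ?_, ?_⟩
      · have := hG.2.1 (γ : SL(2, ℤ)) γ.2 τ
        simpa using this
      · simpa using hG
    exact H642.K2_mem_holN hc hU
  · push_neg at h0
    have : G = 0 := funext h0
    rw [this]
    exact (holN N).zero_mem

/-- An element of `holN M` (any `M`) which is `Γ₀(N)`-invariant lies in `goodRing N`. -/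
theorem mem_goodRing_of_mem_holN' {M : ℕ} [NeZero M] {H : ℍ → ℂ} (hH : H ∈ holN M)
    (hinv : ∀ γ ∈ Gamma0 N, ∀ τ : ℍ, H (γ • τ) = H τ) : H ∈ goodRing N := by
  refine ⟨hH.1, hinv, fun g => ?_⟩
  obtain ⟨φ, hφ⟩ := hH.2 g
  exact H332.expGrowth_of_infExp hφ

/-- `f ∈ holN N ⟹ (τ ↦ f (ℓ τ)) ∈ holN (N ℓ)`. -/
theorem comp_infAff_mem_holN {ℓ : ℕ} [NeZero ℓ] [NeZero (N * ℓ)] {f : ℍ → ℂ} (hf : f ∈ holN N) :
    (fun τ => f (infAff ℓ 0 1 τ)) ∈ holN (N * ℓ) := by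
  have hℓ : 0 < ℓ := Nat.pos_of_ne_zero (NeZero.ne ℓ)
  have hN : 0 < N := Nat.pos_of_ne_zero (NeZero.ne N)
  refine ⟨H564.mdiff_comp_infAff hf.1 hℓ one_pos 0, fun g => ?_⟩
  obtain ⟨γ', a, d', b, ha, hd', had, h00, h01, h10, h11⟩ := inf_exists_hnf ℓ hℓ g
  obtain ⟨φ, hφ⟩ := hf.2 γ'
  haveI : NeZero (a * a) := ⟨(Nat.mul_pos ha ha).ne'⟩
  have he : a * a * (d' * N) = a * (N * ℓ) := by
    rw [← had]; ring
  have h := hφ.comp_infAff (e := a * a) b ha hd' hN (Nat.mul_pos hN hℓ) he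
  have h2 : compSL g (fun τ => f (infAff ℓ 0 1 τ))
      = fun τ => compSL γ' f (infAff a b d' τ) := by
    funext τ
    show f (infAff ℓ 0 1 (g • τ)) = f (γ' • infAff a b d' τ)
    rw [inf_aff_smul_eq hℓ ha hd' g γ' h00 h01 h10 h11 τ]
  rw [h2]
  exact h.mem_expRing

/-- `f ∈ holN N ⟹ (τ ↦ f ((τ + b) / ℓ)) ∈ holN (N ℓ)`. -/
theorem comp_infAff_mem_holN' {ℓ : ℕ} [NeZero ℓ] [NeZero (N * ℓ)] {f : ℍ → ℂ} (hf : f ∈ holN N)
    (b : ℤ) : (fun τ => f (infAff 1 b ℓ τ)) ∈ holN (N * ℓ) := by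
  have hℓ : 0 < ℓ := Nat.pos_of_ne_zero (NeZero.ne ℓ)
  let γ : SL(2, ℤ) := ⟨!![0, 1; -1, -b], by rw [Matrix.det_fin_two_of]; ring⟩
  let γ' : SL(2, ℤ) := ⟨!![0, 1; -1, 0], by rw [Matrix.det_fin_two_of]; ring⟩
  have key : ∀ τ : ℍ, infAff ℓ 0 1 (γ • τ) = γ' • infAff 1 b ℓ τ := by
    intro τ
    refine infAff_smul_eq_gen hℓ one_pos one_pos hℓ γ γ' ?_ ?_ ?_ ?_ τ
    · simp [γ, γ']
    · simp [γ, γ']
    · simp [γ, γ']
    · simp [γ, γ']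
  have h1 : compSL γ'⁻¹ f ∈ holN N := comp_mem_holN N γ'⁻¹ f hf
  have h2 := comp_infAff_mem_holN (ℓ := ℓ) h1
  have h3 := comp_mem_holN (N * ℓ) γ _ h2
  have e : (fun τ => f (infAff 1 b ℓ τ))
      = compSL γ (fun τ => compSL γ'⁻¹ f (infAff ℓ 0 1 τ)) := by
    funext τ
    show f (infAff 1 b ℓ τ) = f (γ'⁻¹ • infAff ℓ 0 1 (γ • τ))
    rw [key τ, inv_smul_smul]
  rw [e]
  exact h3

theorem comp_hAct_mem_holN {ℓ : ℕ} [NeZero ℓ] [NeZero (N * ℓ)] {f : ℍ → ℂ} (hf : f ∈ holN N)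
    (i : Option (Fin ℓ)) : (fun τ => f (hAct ℓ i τ)) ∈ holN (N * ℓ) := by
  cases i with
  | none => exact comp_infAff_mem_holN hf
  | some b => exact comp_infAff_mem_holN' hf _

theorem heckeProd_mem_holN {ℓ : ℕ} [NeZero ℓ] [NeZero (N * ℓ)] {f : ℍ → ℂ} (hf : f ∈ holN N) :
    heckeProd ℓ f ∈ holN (N * ℓ) := by
  have h : heckeProd ℓ f = ∏ i : Option (Fin ℓ), (fun τ => f (hAct ℓ i τ)) := by
    funext τ
    rw [heckeProd_apply, Finset.prod_apply]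
  rw [h]
  exact prod_mem fun i _ => comp_hAct_mem_holN hf i

/-- **Growth step of K4-HECKE**: the Hecke product of a good function is good. -/
theorem heckeProd_mem_goodRing {ℓ : ℕ} [NeZero ℓ] {G : ℍ → ℂ} (hG : G ∈ goodRing N)
    (hfac : ∀ γ : G0 N, ∃ (π : Equiv.Perm (Option (Fin ℓ))) (δ : Option (Fin ℓ) → G0 N),
      ∀ i, IsHeckeFactor ℓ γ i (π i, δ i)) :
    heckeProd ℓ G ∈ goodRing N := by
  haveI : NeZero (N * ℓ) := ⟨Nat.mul_ne_zero (NeZero.ne N) (NeZero.ne ℓ)⟩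
  exact mem_goodRing_of_mem_holN' (heckeProd_mem_holN (mem_holN_of_mem_goodRing hG))
    (heckeProd_invariant (Nat.pos_of_ne_zero (NeZero.ne ℓ)) hG.2.1 hfac)

end Growth

end Fermat.Agent.S29.M4b.H822
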