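/-
S29 / M4b / K4-HECKE (helper822): "realisation" (`Realises N u G`, equality of `q`-expansions)
versus the analytic realisation `H452.an N : FF N →+* MerH` (equality in the field of
meromorphic functions on `ℍ`).
-/
import Fermat.Agent.S29.M4b.H822.HeckeProd
import Fermat.Agent.S29.H452.NormProd

set_option autoImplicit false
set_option linter.unusedSectionVars false

noncomputable section

open ModularCurve AlgebraicCurve CongruenceSubgroup UpperHalfPlane
open scoped MatrixGroups Manifold

namespace Fermat.Agent.S29.M4b.H822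

open Fermat.Agent.S24 Fermat.Agent.S24.H997 Fermat.Agent.S24.H648 Fermat.Agent.S24.H624
  Fermat.Agent.S24.H528 Fermat.Agent.S24.H708 Fermat.Agent.S29 Fermat.Agent.S29.M4b

variable {N : ℕ} [NeZero N]

/-- A good function as an element of S24's `Hol`. -/
def goodHol {G : ℍ → ℂ} (hG : G ∈ goodRing N) : (holBase N).Hol :=
  ⟨G, mem_holN_of_mem_goodRing hG⟩

theorem qexp_goodHol_of_realises {u : FF N} {G : ℍ → ℂ} (hu : Realises N u G) :
    (holBase N).qexp (goodHol hu.1) = HolBase.Φ N ((u : FF N) : LaurentSeries Kbar) := by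
  have h1 := H642.K2_infExp_of_realises hu
  have h2 : InfExp N (((holToExp N (goodHol hu.1) : expRing N)) : ℍ → ℂ)
      (expInf N (holToExp N (goodHol hu.1))) := expInf_spec _
  exact h2.unique' h1 (fun τ => rfl)

theorem goodHol_mul_bridge {u : FF N} {G : ℍ → ℂ} (hu : Realises N u G) {r s : RN N}
    (hrs : u * inclRN N s = inclRN N r) :
    goodHol hu.1 * (holBase N).bridge s = (holBase N).bridge r := by
  apply (holBase N).qexp_injective
  rw [map_mul, qexp_goodHol_of_realises hu, HolBase.qexp_bridge, HolBase.qexp_bridge, ← map_mul]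
  congr 1
  exact congrArg (fun f : FF N => (f : LaurentSeries Kbar)) hrs

/-- **Realised ⟹ analytic**: if `G` realises `u` then `an N u = G` in `MerH`. -/
theorem an_eq_of_realises {u : FF N} {G : ℍ → ℂ} (hu : Realises N u G) :
    H452.an N u = algebraMap holoRing MerH ⟨G, hu.1.1⟩ := by
  obtain ⟨r, s, hs, hrs⟩ := exists_div_inclRN N u
  have hs' : inclRN N s ≠ 0 := fun h => hs (inclRN_injective N (by rw [h, map_zero]))
  have hmul : u * inclRN N s = inclRN N r := by rw [hrs, div_mul_cancel₀ _ hs']
  have h1 := goodHol_mul_bridge hu hmul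
  have h2 : H452.an N u * H452.an N (inclRN N s) = H452.an N (inclRN N r) := by
    rw [← map_mul, hmul]
  have h3 : H452.an N (inclRN N s) ≠ 0 := (map_ne_zero _).mpr hs'
  have h4 : algebraMap holoRing MerH ⟨G, hu.1.1⟩ * H452.an N (inclRN N s)
      = H452.an N (inclRN N r) := by
    rw [H452.an_inclRN, H452.an_inclRN, ← h1, map_mul, map_mul]
    rfl
  exact mul_right_cancel₀ h3 (h2.trans h4.symm)

/-- **Analytic ⟹ realised**: a good function `H` with `an N v = H` in `MerH` realises `v`. -/
theorem realises_of_an_eq {v : FF N} {H : ℍ → ℂ} (hH : H ∈ goodRing N)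
    (h : H452.an N v = algebraMap holoRing MerH ⟨H, hH.1⟩) : Realises N v H := by
  obtain ⟨r, s, hs, hrs⟩ := exists_div_inclRN N v
  have hs' : inclRN N s ≠ 0 := fun h => hs (inclRN_injective N (by rw [h, map_zero]))
  have hmul : v * inclRN N s = inclRN N r := by rw [hrs, div_mul_cancel₀ _ hs']
  have h2 : H452.an N v * H452.an N (inclRN N s) = H452.an N (inclRN N r) := by
    rw [← map_mul, hmul]
  have h3 : goodHol hH * (holBase N).bridge s = (holBase N).bridge r := by
    apply H452.holInc_injective N
    apply IsFractionRing.injective holoRing MerH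
    rw [map_mul, map_mul, ← H452.an_inclRN, ← H452.an_inclRN, ← h2, h]
    rfl
  have hΦs : HolBase.Φ N ((s : RN N) : LaurentSeries Kbar) ≠ 0 := by
    intro h0
    apply hs
    apply Subtype.ext
    exact HolBase.Φ_injective (N := N) (h0.trans (map_zero _).symm)
  have h4 : (holBase N).qexp (goodHol hH) = HolBase.Φ N ((v : FF N) : LaurentSeries Kbar) := by
    have e1 : (holBase N).qexp (goodHol hH) * HolBase.Φ N ((s : RN N) : LaurentSeries Kbar)
        = HolBase.Φ N ((r : RN N) : LaurentSeries Kbar) := by
      rw [← HolBase.qexp_bridge, ← HolBase.qexp_bridge, ← map_mul, h3]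
    have e2 : HolBase.Φ N ((v : FF N) : LaurentSeries Kbar)
        * HolBase.Φ N ((s : RN N) : LaurentSeries Kbar)
        = HolBase.Φ N ((r : RN N) : LaurentSeries Kbar) := by
      rw [← map_mul]
      congr 1
      exact congrArg (fun f : FF N => (f : LaurentSeries Kbar)) hmul
    exact mul_right_cancel₀ hΦs (e1.trans e2.symm)
  have h5 : InfExp N H (HolBase.Φ N ((v : FF N) : LaurentSeries Kbar)) := by
    have := expInf_spec (holToExp N (goodHol hH))
    rw [← h4]
    exact this
  have h6 := H882.hasQExp_of_mem_goodRing hH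
  have h7 := HasQExp.of_period_mul N h6
  have h8 : InfExp N H (qExpand ℂ N (qexpFun 1 H)) := by
    intro τ
    have h9 := HasQExp.hasSum h7 τ
    simp only [one_mul] at h9
    exact h9
  have h10 := h8.unique h5
  exact ⟨hH, qExpand_injective N h10⟩

end Fermat.Agent.S29.M4b.H822
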