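/-
S29 / M4b / K4-HECKE (helper822): the ANALYTIC half.
If `G` realises `u ∈ FF N` then the Hecke product `∏ᵢ G ∘ αᵢ` realises `Norm_α (β u)`
(from helper452's norm formula `H452.an_normAlong_beta`).
-/
import Fermat.Agent.S29.M4b.H822.HeckeAn
import Fermat.Agent.S29.M4b.H822.HeckeAlg

set_option autoImplicit false
set_option linter.unusedSectionVars false

noncomputable section

open ModularCurve AlgebraicCurve CongruenceSubgroup UpperHalfPlane
open scoped MatrixGroups Manifold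

namespace Fermat.Agent.S29.M4b.H822

open Fermat.Agent.S24 Fermat.Agent.S24.H997 Fermat.Agent.S24.H648 Fermat.Agent.S24.H624
  Fermat.Agent.S24.H528 Fermat.Agent.S24.H708 Fermat.Agent.S29 Fermat.Agent.S29.M4b

/-- Prelude's Hecke representatives in `GL₂(ℝ)`, indexed by `ℙ¹(𝔽_ℓ)`. -/
abbrev pRep (ℓ : ℕ) (x : OnePoint (ZMod ℓ)) : GL (Fin 2) ℝ :=
  P2MW.S_ModularForm_heckeT_slash_eq_self_of_mem_Gamma0.ModularForm.HeckeSlashInvariance.heckeRep
    ℓ x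

/-- The index bijection `Option (Fin ℓ) ≃ ℙ¹(𝔽_ℓ)`. -/
def idxEquiv (ℓ : ℕ) [NeZero ℓ] : Option (Fin ℓ) ≃ OnePoint (ZMod ℓ) :=
  Equiv.optionCongr (ZMod.finEquiv ℓ).toEquiv

theorem finEquiv_val (ℓ : ℕ) [NeZero ℓ] (b : Fin ℓ) : (ZMod.finEquiv ℓ b).val = (b : ℕ) := by
  cases ℓ with
  | zero => exact absurd rfl (NeZero.ne 0)
  | succ n => rfl

theorem pRep_smul (ℓ : ℕ) [NeZero ℓ] (i : Option (Fin ℓ)) (τ : ℍ) :
    pRep ℓ (idxEquiv ℓ i) • τ = hAct ℓ i τ := by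
  have hℓ : 0 < ℓ := Nat.pos_of_ne_zero (NeZero.ne ℓ)
  apply UpperHalfPlane.ext
  cases i with
  | none =>
    show ((ModularForm.heckeDiagMatrix ℓ • τ : ℍ) : ℂ) = ((infAff ℓ 0 1 τ : ℍ) : ℂ)
    rw [ModularForm.coe_heckeDiagMatrix_smul (NeZero.ne ℓ), infAff_coe hℓ one_pos]
    simp
  | some b =>
    show ((ModularForm.heckeMatrix ℓ (ZMod.finEquiv ℓ b).val • τ : ℍ) : ℂ)
      = ((infAff 1 ((b : ℕ) : ℤ) ℓ τ : ℍ) : ℂ)
    rw [ModularForm.coe_heckeMatrix_smul (NeZero.ne ℓ), infAff_coe one_pos hℓ, finEquiv_val]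
    simp

variable {N : ℕ} [NeZero N]

/-- **Analytic half of K4-HECKE**: the Hecke product of a realisation of `u` realises
`Norm_α (β u)`. -/
theorem realises_heckeNorm {ℓ : ℕ} [NeZero ℓ] (hℓ : ℓ.Prime) (hℓN : ¬ ℓ ∣ N)
    (hfac : ∀ γ : G0 N, ∃ (π : Equiv.Perm (Option (Fin ℓ))) (δ : Option (Fin ℓ) → G0 N),
      ∀ i, IsHeckeFactor ℓ γ i (π i, δ i))
    {u : FF N} {G : ℍ → ℂ} (hu : Realises N u G) :
    Realises N (heckeNorm N ℓ u) (heckeProd ℓ G) := by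
  have hgood := heckeProd_mem_goodRing hu.1 hfac
  apply realises_of_an_eq hgood
  unfold heckeNorm
  rw [H452.an_normAlong_beta hℓ hℓN, an_eq_of_realises hu]
  simp only [H452.merGL_algebraMap]
  rw [← map_prod]
  congr 1
  apply Subtype.ext
  funext τ
  rw [SubmonoidClass.coe_finset_prod, Finset.prod_apply]
  show ∏ x : OnePoint (ZMod ℓ), G (pRep ℓ x • τ) = heckeProd ℓ G τ
  rw [heckeProd_apply, ← Equiv.prod_comp (idxEquiv ℓ)]
  exact Finset.prod_congr rfl fun i _ => by rw [pRep_smul]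

end Fermat.Agent.S29.M4b.H822
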