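/-
S29 / M4b / PIECE K4-HECKE (helper822): EXACT `PieceHecke N p` of `M4b/Top.lean`.

If `x` is the Kummer class of the character `c` (witness `f, t, U`), then `T_ℓ x` is the Kummer
class of the transfer `c'` of `c`, with witness
`Norm_α (β f)`, `Norm_α (β t)`, `∏ᵢ U ∘ αᵢ`.

* algebraic half  : `isKummerClass_heckeOperatorBar` (`HeckeAlg.lean`; HI + `H455.correspondence`);
* analytic half   : `realises_heckeNorm` (`HeckeNorm.lean`; helper452's norm formula);
* character       : `hasChar_heckeProd` (`HeckeProd.lean`);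
* growth at cusps : `heckeProd_mem_goodRing` (`HeckeProd.lean`; S24 `Inf` toolkit).
-/
import Fermat.Agent.S29.M4b.H822.HeckeNorm
import Fermat.Agent.S29.M4b.Top

set_option autoImplicit false
set_option linter.unusedSectionVars false

noncomputable section

open ModularCurve AlgebraicCurve CongruenceSubgroup UpperHalfPlane
open scoped MatrixGroups Manifold

namespace Fermat.Agent.S29.M4b.H822

open Fermat.Agent.S24 Fermat.Agent.S29 Fermat.Agent.S29.M4b

/-- **PIECE `K4-HECKE`** (exact `Prop` of `M4b/Top.lean`), for every level and every modulus. -/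
theorem pieceHecke (N : ℕ) [NeZero N] (p : ℕ) : PieceHecke N p := by
  intro ℓ hℓ hfac c c' _hc hcc' x hx
  have hp : p ≠ 0 := by
    rintro rfl
    exact hℓ (by simp)
  haveI : NeZero p := ⟨hp⟩
  haveI : NeZero (ℓ : ℕ) := ⟨ℓ.2.ne_zero⟩
  have hℓpos : 0 < (ℓ : ℕ) := ℓ.2.pos
  have hℓN : ¬ (ℓ : ℕ) ∣ N := fun h => hℓ (Dvd.dvd.mul_right h p)
  obtain ⟨f, t, U, ht, hfx, hU, hreal⟩ := hx
  -- the analytic half
  have hreal' : Realises N (heckeNorm N ℓ f * heckeNorm N ℓ t ^ p)
      (fun τ => heckeProd ℓ U τ ^ p) := by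
    rw [← heckeNorm_pow, ← heckeNorm_mul, ← heckeProd_pow]
    exact realises_heckeNorm ℓ.2 hℓN hfac hreal
  have hne : heckeNorm N ℓ f * heckeNorm N ℓ t ^ p ≠ 0 :=
    mul_ne_zero (heckeNorm_ne_zero N ℓ hfx.ne_zero) (pow_ne_zero _ (heckeNorm_ne_zero N ℓ ht))
  refine ⟨heckeNorm N ℓ f, heckeNorm N ℓ t, heckeProd ℓ U, heckeNorm_ne_zero N ℓ ht,
    isKummerClass_heckeOperatorBar N ℓ hfx, ⟨mdiff_heckeProd hℓpos hU.mdiff, ?_,
      hasChar_heckeProd hℓpos hU.hasChar hfac hcc', hreal'.1⟩, hreal'⟩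
  -- the Hecke product is not identically zero
  by_contra h0
  push_neg at h0
  apply realises_ne_zero hreal' hne
  funext τ
  show heckeProd ℓ U τ ^ p = 0
  rw [h0 τ, zero_pow hp]

end Fermat.Agent.S29.M4b.H822
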